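import Fermat.Agent.S14.Thaine430.Count
import Fermat.Agent.S14.H71.Glue
import Fermat.Agent.S14.H71.DeltaCongr

/-!
# S14 / THAINE block: `Spec.ThaineStatement`

Assembly (helper430) of
* the core `exists_gamma` (helper430: `L = K(ζ_q)`, Hilbert 90, local analysis at `q`), applied
  to every primitive root `ζ ^ b`, `1 ≤ b ≤ p - 1`, and multiplied up to the element of type
  `ω²`;
* the glue of helper71 (`H71.delta_congr`, `H71.thaine_glue`, `H71.PrimeFacts`).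
-/

namespace Fermat.Agent.S14.Thaine430

set_option linter.unusedSectionVars false

open NumberField Ideal UniqueFactorizationMonoid
open scoped nonZeroDivisors
open Fermat.Agent.S14.Spec

section final

variable (p : ℕ) [hp : Fact p.Prime]
variable (K : Type) [Field K] [NumberField K] [IsCyclotomicExtension {p} ℚ K]

/-- A prime of `𝓞 K` of prime norm `q ≠ p` has `q ≡ 1 mod p`. -/
theorem modEq_one_of_absNorm_prime (Q : Ideal (𝓞 K)) [hQ : Q.IsPrime] (q : ℕ) [hq : Fact q.Prime]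
    (hqp : q ≠ p) (hnorm : Ideal.absNorm Q = q) : q ≡ 1 [MOD p] := by
  have hqQ : (q : 𝓞 K) ∈ Q := hnorm ▸ Ideal.absNorm_mem Q
  have hlies := liesOver_span_q (q := q) K Q hqQ
  obtain ⟨n, hn⟩ := H71.exists_int_sub_mem Q (hnorm ▸ hq.out) (zetaInt p K)
  have hζp : zetaInt p K ^ p = 1 := (H71.zetaInt_isPrimitiveRoot p K).pow_eq_one
  -- `n ^ p ≡ 1 mod q`
  have h1 : ((n ^ p - 1 : ℤ) : 𝓞 K) ∈ Q := by
    obtain ⟨c, hc⟩ := sub_dvd_pow_sub_pow (zetaInt p K) (n : 𝓞 K) p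
    have : ((n ^ p - 1 : ℤ) : 𝓞 K) = -((zetaInt p K - (n : 𝓞 K)) * c) := by
      rw [← hc, hζp]; push_cast; ring
    rw [this]
    exact Ideal.neg_mem_iff _ |>.mpr (Ideal.mul_mem_right _ _ hn)
  have h2 : (n ^ p - 1 : ℤ) ∈ Q.under ℤ := by
    rw [Ideal.under_def, Ideal.mem_comap]
    simpa using h1
  rw [← Ideal.over_def Q (Ideal.span {(q : ℤ)}), Ideal.mem_span_singleton] at h2
  have h3 : ((n : ZMod q)) ^ p = 1 := by
    have := (ZMod.intCast_zmod_eq_zero_iff_dvd _ q).mpr h2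
    push_cast at this
    exact sub_eq_zero.mp this
  -- `n ≢ 1 mod q`
  have h4 : (n : ZMod q) ≠ 1 := by
    intro h
    have h5 : ((n - 1 : ℤ) : ZMod q) = 0 := by push_cast; rw [h, sub_self]
    have h6 := (ZMod.intCast_zmod_eq_zero_iff_dvd _ q).mp h5
    have h7 : (n - 1 : ℤ) ∈ Q.under ℤ := by
      rw [← Ideal.over_def Q (Ideal.span {(q : ℤ)}), Ideal.mem_span_singleton]
      exact h6
    rw [Ideal.under_def, Ideal.mem_comap] at h7
    have h8 : zetaInt p K ^ 1 - 1 ∈ Q := by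
      have : zetaInt p K ^ 1 - 1 = (zetaInt p K - (n : 𝓞 K)) + ((n - 1 : ℤ) : 𝓞 K) := by
        push_cast; ring
      rw [this]
      exact Ideal.add_mem _ hn (by simpa using h7)
    exact H71.zetaInt_pow_sub_one_notMem p K Q hQ.ne_top q hq.out hqp hqQ 1
      (fun h => hp.out.one_lt.ne' (Nat.dvd_one.mp h)) h8
  -- the unit of order `p`
  have hunit : IsUnit (n : ZMod q) := by
    apply IsUnit.of_pow_eq_one h3 hp.out.ne_zero
  obtain ⟨u, hu⟩ := hunit
  have hu1 : u ^ p = 1 := Units.ext (by rw [Units.val_pow_eq_pow_val, hu, h3]; rfl)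
  have hu2 : u ≠ 1 := by
    intro h
    apply h4
    rw [← hu, h]; rfl
  have hord : orderOf u = p := orderOf_eq_prime hu1 hu2
  have hdvd : p ∣ q - 1 := by
    have := orderOf_dvd_card (x := u)
    rwa [hord, ZMod.card_units] at this
  exact ((Nat.modEq_iff_dvd' hq.out.one_le).mpr hdvd).symm

/-- Multiplicity of a nonzero prime in a product of powers of principal ideals. -/
theorem multiplicity_span_prod_pow {R : Type*} [CommRing R] [IsDedekindDomain R]
    (P : Ideal R) [hP : P.IsPrime] (hP0 : P ≠ ⊥) {ι : Type*} (s : Finset ι) (f : ι → R)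
    (e : ι → ℕ) (hf : ∀ i ∈ s, f i ≠ 0) :
    multiplicity P (Ideal.span {∏ i ∈ s, f i ^ e i}) =
      ∑ i ∈ s, e i * multiplicity P (Ideal.span {f i}) := by
  have hprime : Prime P := Ideal.prime_of_isPrime hP0 hP
  have hprod0 : ∏ i ∈ s, f i ^ e i ≠ 0 :=
    Finset.prod_ne_zero_iff.mpr fun i hi => pow_ne_zero _ (hf i hi)
  have hI0 : Ideal.span {∏ i ∈ s, f i ^ e i} ≠ ⊥ := by simpa using hprod0
  have h1 : emultiplicity P (Ideal.span {∏ i ∈ s, f i ^ e i}) =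
      ((∑ i ∈ s, e i * multiplicity P (Ideal.span {f i}) : ℕ) : ℕ∞) := by
    rw [← Ideal.prod_span_singleton, Finset.emultiplicity_prod hprime]
    push_cast
    refine Finset.sum_congr rfl fun i hi => ?_
    rw [← Ideal.span_singleton_pow, emultiplicity_pow hprime,
      (FiniteMultiplicity.of_prime_left hprime
        (by simpa using hf i hi : Ideal.span {f i} ≠ ⊥)).emultiplicity_eq_multiplicity]
  rw [(FiniteMultiplicity.of_prime_left hprime hI0).emultiplicity_eq_multiplicity] at h1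
  exact_mod_cast h1

open Classical in
theorem count_eq_multiplicity {R : Type*} [CommRing R] [IsDedekindDomain R]
    (P : Ideal R) [hP : P.IsPrime] (hP0 : P ≠ ⊥) {I : Ideal R} (hI : I ≠ ⊥) :
    Multiset.count P (normalizedFactors I) = multiplicity P I := by
  have := IsDedekindDomain.HeightOneSpectrum.count_normalizedFactors_eq_multiplicity hI
    (⟨P, hP, hP0⟩ : IsDedekindDomain.HeightOneSpectrum R)
  convert this

open Classical in
/-- **Thaine's relation for good primes** (`Spec.ThaineStatement`). -/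
theorem thaineStatement : ThaineStatement := by
  intro p _ h5 K _ _ _ Q hgood
  obtain ⟨hQp, hqprime, hqp, hδ⟩ := hgood
  have hp : Fact p.Prime := inferInstance
  set q := Ideal.absNorm (Q : Ideal (𝓞 K)) with hqdef
  have : Fact q.Prime := ⟨hqprime⟩
  have hqQ : (q : 𝓞 K) ∈ (Q : Ideal (𝓞 K)) := Ideal.absNorm_mem _
  have hQ0 : (Q : Ideal (𝓞 K)) ≠ ⊥ := mem_nonZeroDivisors_iff_ne_zero.mp Q.2
  have hq1 : q ≡ 1 [MOD p] := modEq_one_of_absNorm_prime p K (Q : Ideal (𝓞 K)) q hqp rfl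
  obtain ⟨g, hg⟩ := IsCyclic.exists_generator (α := (ZMod q)ˣ)
  have hζ := H71.zetaInt_isPrimitiveRoot p K
  have hp1 : 1 < p := hp.out.one_lt
  -- the core, for every primitive root `ζ ^ b`
  have hex : ∀ b : ℕ, ∃ γ : 𝓞 K, γ ≠ 0 ∧ (b ∈ Finset.Icc 1 (p - 1) →
      (∀ P : Ideal (𝓞 K), P.IsPrime → P ≠ ⊥ → (q : 𝓞 K) ∉ P →
        (q - 1) ∣ multiplicity P (Ideal.span {γ})) ∧
      (∀ P : Ideal (𝓞 K), P.IsPrime → (q : 𝓞 K) ∈ P →
        (zetaInt p K ^ b - 1) * (((g : ZMod q).val : ℕ) : 𝓞 K) ^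
          (multiplicity P (Ideal.span {γ})) - 1 ∈ P)) := by
    intro b
    by_cases hb : b ∈ Finset.Icc 1 (p - 1)
    · rw [Finset.mem_Icc] at hb
      have hcop : b.Coprime p :=
        (Nat.coprime_of_lt_prime (by omega) (by omega) hp.out).symm
      obtain ⟨γ, h0, h1, h2⟩ := exists_gamma (p := p) K (CyclotomicField q K) hqp.symm hq1 g hg
        (hζ.pow_of_coprime b hcop)
      exact ⟨γ, h0, fun _ => ⟨h1, h2⟩⟩
    · exact ⟨1, one_ne_zero, fun h => absurd h hb⟩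
  choose γ hγ0 hγ using hex
  set Γ : 𝓞 K := ∏ b ∈ Finset.Icc 1 (p - 1), γ b ^ (b ^ (p - 3)) with hΓdef
  have hΓ0 : Γ ≠ 0 := Finset.prod_ne_zero_iff.mpr fun b _ => pow_ne_zero _ (hγ0 b)
  have hΓI : Ideal.span {Γ} ≠ ⊥ := by simpa using hΓ0
  have hmult : ∀ P : Ideal (𝓞 K), P.IsPrime → P ≠ ⊥ →
      Multiset.count P (normalizedFactors (Ideal.span {Γ})) =
        ∑ b ∈ Finset.Icc 1 (p - 1), b ^ (p - 3) * multiplicity P (Ideal.span {γ b}) := by
    intro P hP hP0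
    rw [count_eq_multiplicity P hP0 hΓI, hΓdef]
    exact multiplicity_span_prod_pow P hP0 _ _ _ fun b _ => hγ0 b
  have hpq1 : p ∣ q - 1 := (Nat.modEq_iff_dvd' hqprime.one_le).mp hq1.symm
  -- (A) away from `q`
  have hA : ∀ 𝔮 : Ideal (𝓞 K), 𝔮.IsPrime → (q : 𝓞 K) ∉ 𝔮 →
      p ∣ Multiset.count 𝔮 (normalizedFactors (Ideal.span {Γ})) := by
    intro 𝔮 h𝔮 hq𝔮
    by_cases h0 : 𝔮 = ⊥
    · have : Multiset.count 𝔮 (normalizedFactors (Ideal.span {Γ})) = 0 := by
        rw [Multiset.count_eq_zero]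
        intro hmem
        exact (prime_of_normalized_factor _ hmem).ne_zero (by rw [h0]; rfl)
      rw [this]
      exact dvd_zero p
    · rw [hmult 𝔮 h𝔮 h0]
      refine Finset.dvd_sum fun b hb => ?_
      exact Dvd.dvd.mul_left (hpq1.trans ((hγ b hb).1 𝔮 h𝔮 h0 hq𝔮)) _
  -- (B) at the conjugates of `Q`
  have hσprime : ∀ σ : K ≃ₐ[ℚ] K,
      ((Q : Ideal (𝓞 K)).map (ringAut K σ : 𝓞 K →+* 𝓞 K)).IsPrime := fun σ =>
    Ideal.map_isPrime_of_equiv (ringAut K σ)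
  have hσq : ∀ σ : K ≃ₐ[ℚ] K,
      (q : 𝓞 K) ∈ (Q : Ideal (𝓞 K)).map (ringAut K σ : 𝓞 K →+* 𝓞 K) :=
    H71.natCast_mem_map K (Q : Ideal (𝓞 K)) q hqQ
  have hσ0 : ∀ σ : K ≃ₐ[ℚ] K,
      (Q : Ideal (𝓞 K)).map (ringAut K σ : 𝓞 K →+* 𝓞 K) ≠ ⊥ := by
    intro σ h
    have := hσq σ
    rw [h] at this
    exact q_ne_zero_int (q := q) K (by simpa using this)
  have hH : ∀ σ : K ≃ₐ[ℚ] K,
      delta p K * (((((g : ZMod q).val : ℕ) : ℤ)) : 𝓞 K) ^
        (Multiset.count ((Q : Ideal (𝓞 K)).map (ringAut K σ : 𝓞 K →+* 𝓞 K))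
          (normalizedFactors (Ideal.span {Γ}))) - 1 ∈
        (Q : Ideal (𝓞 K)).map (ringAut K σ : 𝓞 K →+* 𝓞 K) := by
    intro σ
    set P := (Q : Ideal (𝓞 K)).map (ringAut K σ : 𝓞 K →+* 𝓞 K) with hPdef
    have hP := hσprime σ
    rw [hmult P hP (hσ0 σ)]
    rw [← Ideal.Quotient.eq, map_mul, map_pow, map_one]
    have hfac : ∀ b ∈ Finset.Icc 1 (p - 1),
        Ideal.Quotient.mk P (zetaInt p K ^ b - 1) *
          Ideal.Quotient.mk P (((g : ZMod q).val : ℕ) : 𝓞 K) ^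
            (multiplicity P (Ideal.span {γ b})) = 1 := by
      intro b hb
      have := (hγ b hb).2 P hP (hσq σ)
      rw [← Ideal.Quotient.eq, map_mul, map_pow, map_one] at this
      exact this
    have hcast : (((((g : ZMod q).val : ℕ) : ℤ)) : 𝓞 K) = (((g : ZMod q).val : ℕ) : 𝓞 K) := by
      push_cast; rfl
    rw [hcast, delta, map_prod, ← Finset.prod_pow_eq_pow_sum, ← Finset.prod_mul_distrib]
    refine Finset.prod_eq_one fun b hb => ?_
    rw [map_pow, pow_mul', ← mul_pow, hfac b hb, one_pow]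
  obtain ⟨hr, hB⟩ := H71.delta_congr p K h5 (Q : Ideal (𝓞 K)) hQ0 q hqprime hqp hqQ hδ
    ((((g : ZMod q).val : ℕ) : ℤ)) _ hH
  refine H71.thaine_glue p K Q q hσq
    (H71.map_ringAut_injective p K (Q : Ideal (𝓞 K)) q hqprime hqp rfl)
    (H71.exists_map_eq p K (Q : Ideal (𝓞 K)) q hqprime hqQ)
    Γ hΓ0 _ hr hA hB

end final

end Fermat.Agent.S14.Thaine430
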