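import Mathlib

/-!
# S14 / THAINE block (helper430): classes of ideals and factorisation of a principal ideal

Abstract lemma for a Dedekind domain `R`: if `γ ≠ 0` and `s` is a finite set of nonzero primes
such that the multiplicity of every prime outside `s` in `(γ)` is divisible by `n`, then
`∏_{P ∈ s} [P] ^ v_P(γ)` is an `n`-th power in the class group.
-/

namespace Fermat.Agent.S14.Thaine430

set_option linter.unusedSectionVars false

open IsDedekindDomain Ideal

section classabs

variable {R : Type*} [CommRing R] [IsDedekindDomain R]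

open Classical in
/-- The class of an ideal in the class group (`1` for the zero ideal). -/
noncomputable def idealClass (I : Ideal R) : ClassGroup R :=
  if h : I = ⊥ then 1 else ClassGroup.mk0 ⟨I, mem_nonZeroDivisors_iff_ne_zero.mpr h⟩

theorem idealClass_of_ne_bot {I : Ideal R} (h : I ≠ ⊥) :
    idealClass I = ClassGroup.mk0 ⟨I, mem_nonZeroDivisors_iff_ne_zero.mpr h⟩ := by
  rw [idealClass, dif_neg h]

theorem idealClass_one : idealClass (1 : Ideal R) = 1 := by
  rw [idealClass_of_ne_bot (by simp)]
  exact map_one ClassGroup.mk0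

theorem idealClass_mul {I J : Ideal R} (hI : I ≠ ⊥) (hJ : J ≠ ⊥) :
    idealClass (I * J) = idealClass I * idealClass J := by
  have hIJ : I * J ≠ ⊥ := mul_ne_zero hI hJ
  rw [idealClass_of_ne_bot hI, idealClass_of_ne_bot hJ, idealClass_of_ne_bot hIJ, ← map_mul]
  rfl

theorem idealClass_pow {I : Ideal R} (hI : I ≠ ⊥) (n : ℕ) :
    idealClass (I ^ n) = idealClass I ^ n := by
  induction n with
  | zero => simpa using idealClass_one (R := R)
  | succ k ih =>
    rw [pow_succ, pow_succ, idealClass_mul (pow_ne_zero k hI) hI, ih]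

theorem idealClass_prod {ι : Type*} (s : Finset ι) (f : ι → Ideal R) (hf : ∀ i ∈ s, f i ≠ ⊥) :
    idealClass (∏ i ∈ s, f i) = ∏ i ∈ s, idealClass (f i) := by
  classical
  induction s using Finset.induction_on with
  | empty => simpa using idealClass_one (R := R)
  | insert a t ha ih =>
    rw [Finset.prod_insert ha, Finset.prod_insert ha]
    have h1 : f a ≠ ⊥ := hf a (Finset.mem_insert_self a t)
    have h2 : ∏ i ∈ t, f i ≠ ⊥ := by
      rw [← Ideal.zero_eq_bot, Finset.prod_ne_zero_iff]
      exact fun i hi => hf i (Finset.mem_insert_of_mem hi)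
    rw [idealClass_mul h1 h2, ih fun i hi => hf i (Finset.mem_insert_of_mem hi)]

theorem idealClass_span_singleton {x : R} (hx : x ≠ 0) :
    idealClass (Ideal.span {x}) = 1 := by
  have h : Ideal.span {x} ≠ ⊥ := by simpa using hx
  rw [idealClass_of_ne_bot h, ClassGroup.mk0_eq_one_iff]
  exact ⟨⟨x, rfl⟩⟩

theorem multiplicity_eq_zero_of_not_dvd' {P I : Ideal R} (h : ¬ P ∣ I) :
    multiplicity P I = 0 :=
  multiplicity_eq_zero.mpr h

/-- If `γ ≠ 0` and the multiplicity in `(γ)` of every nonzero prime outside the finite set `s`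
is divisible by `n`, then `∏_{P ∈ s} [P] ^ v_P(γ)` is an `n`-th power in the class group. -/
theorem prod_idealClass_pow_eq_pow (γ : R) (hγ : γ ≠ 0) (n : ℕ) (s : Finset (Ideal R))
    (hs : ∀ P ∈ s, P.IsPrime ∧ P ≠ ⊥)
    (hdiv : ∀ P : Ideal R, P.IsPrime → P ≠ ⊥ → P ∉ s → n ∣ multiplicity P (Ideal.span {γ})) :
    ∃ J : ClassGroup R,
      ∏ P ∈ s, idealClass P ^ multiplicity P (Ideal.span {γ}) = J ^ n := by
  classical
  set I : Ideal R := Ideal.span {γ} with hIdef
  have hI : I ≠ ⊥ := by simpa [hIdef] using hγ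
  have hfin : (Function.mulSupport fun v : HeightOneSpectrum R => v.maxPowDividing I).Finite :=
    Ideal.hasFiniteMulSupport hI
  -- the finite set of height one primes we work with
  let S' : Finset (HeightOneSpectrum R) :=
    s.attach.image fun P => ⟨P.1, (hs P.1 P.2).1, (hs P.1 P.2).2⟩
  let T : Finset (HeightOneSpectrum R) := hfin.toFinset ∪ S'
  have hsub : Function.mulSupport
      (fun v : HeightOneSpectrum R => v.asIdeal ^ multiplicity v.asIdeal I) ⊆ ↑T := by
    intro v hv
    simp only [T, Finset.coe_union, Set.mem_union, Finset.mem_coe, Set.Finite.mem_toFinset]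
    left
    rw [Function.mem_mulSupport] at hv ⊢
    rwa [HeightOneSpectrum.maxPowDividing_eq_pow_multiplicity hI]
  have hprod : I = ∏ v ∈ T, v.asIdeal ^ multiplicity v.asIdeal I := by
    rw [← finprod_eq_prod_of_mulSupport_subset _ hsub]
    exact (Ideal.finprod_heightOneSpectrum_pow_multiplicity hI).symm
  have hcls : (1 : ClassGroup R) = ∏ v ∈ T, idealClass v.asIdeal ^ multiplicity v.asIdeal I := by
    rw [← idealClass_span_singleton hγ, ← hIdef]
    conv_lhs => rw [hprod]
    rw [idealClass_prod _ _ fun v _ => pow_ne_zero _ v.ne_bot]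
    exact Finset.prod_congr rfl fun v _ => idealClass_pow v.ne_bot _
  rw [← Finset.prod_filter_mul_prod_filter_not T (fun v => v.asIdeal ∈ s)] at hcls
  -- the part inside `s`
  have h1 : ∏ v ∈ T.filter (fun v => v.asIdeal ∈ s),
      idealClass v.asIdeal ^ multiplicity v.asIdeal I =
      ∏ P ∈ s, idealClass P ^ multiplicity P I := by
    refine Finset.prod_bij (fun v _ => v.asIdeal) ?_ ?_ ?_ ?_
    · intro v hv
      exact (Finset.mem_filter.mp hv).2
    · intro v _ w _ hvw
      exact HeightOneSpectrum.ext hvw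
    · intro P hP
      refine ⟨⟨P, (hs P hP).1, (hs P hP).2⟩, ?_, rfl⟩
      rw [Finset.mem_filter]
      refine ⟨?_, hP⟩
      simp only [T, Finset.mem_union]
      right
      simp only [S', Finset.mem_image, Finset.mem_attach, true_and, Subtype.exists]
      exact ⟨P, hP, rfl⟩
    · intro v _
      rfl
  -- the part outside `s`
  have h2 : ∏ v ∈ T.filter (fun v => ¬ v.asIdeal ∈ s),
      idealClass v.asIdeal ^ multiplicity v.asIdeal I =
      (∏ v ∈ T.filter (fun v => ¬ v.asIdeal ∈ s),
        idealClass v.asIdeal ^ (multiplicity v.asIdeal I / n)) ^ n := by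
    rw [← Finset.prod_pow]
    refine Finset.prod_congr rfl fun v hv => ?_
    have hv' : v.asIdeal ∉ s := (Finset.mem_filter.mp hv).2
    obtain ⟨k, hk⟩ := hdiv v.asIdeal v.isPrime v.ne_bot hv'
    rw [← pow_mul]
    congr 1
    rw [hk]
    rcases Nat.eq_zero_or_pos n with h0 | hpos
    · subst h0; simp
    · rw [Nat.mul_div_cancel_left _ hpos, mul_comm]
  rw [h1, h2] at hcls
  refine ⟨(∏ v ∈ T.filter (fun v => ¬ v.asIdeal ∈ s),
        idealClass v.asIdeal ^ (multiplicity v.asIdeal I / n))⁻¹, ?_⟩
  rw [inv_pow]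
  exact eq_inv_of_mul_eq_one_left hcls.symm

end classabs

end Fermat.Agent.S14.Thaine430
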