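import Fermat.Agent.S14.Thaine430.Global

/-!
# S14 / THAINE block (helper430): ramification indices in `L/K` and the factorisation of
`N_{L/K}(β)`
-/

namespace Fermat.Agent.S14.Thaine430

set_option linter.unusedSectionVars false

open NumberField Polynomial Ideal

section count

variable {p q : ℕ} [hp : Fact p.Prime] [hq : Fact q.Prime]
variable (K L : Type) [Field K] [Field L] [NumberField K] [NumberField L] [Algebra K L]
  [IsCyclotomicExtension {p} ℚ K] [IsCyclotomicExtension {q} K L]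

/-- Every nonzero prime of the ring of integers of a number field lies over a rational prime. -/
theorem exists_prime_liesOver {F : Type*} [Field F] [NumberField F] (P : Ideal (𝓞 F))
    [hP : P.IsPrime] (hP0 : P ≠ ⊥) :
    ∃ ℓ : ℕ, ℓ.Prime ∧ P.LiesOver (Ideal.span {(ℓ : ℤ)}) := by
  have hJ0 : P.under ℤ ≠ ⊥ := Ideal.under_ne_bot ℤ hP0
  have hJp : (P.under ℤ).IsPrime := Ideal.IsPrime.under ℤ P
  have hJ := Int.ideal_span_absNorm_eq_self (P.under ℤ)
  refine ⟨Ideal.absNorm (P.under ℤ), ?_, ?_⟩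
  · rw [Nat.prime_iff_prime_int]
    have hne : ((Ideal.absNorm (P.under ℤ) : ℕ) : ℤ) ≠ 0 := by
      intro h
      rw [h] at hJ
      apply hJ0
      rw [← hJ]
      simp
    rw [← Ideal.span_singleton_prime hne, hJ]
    exact hJp
  · rw [Ideal.liesOver_iff, hJ]

theorem natCast_mem_of_liesOver {F : Type*} [Field F] [NumberField F] (P : Ideal (𝓞 F))
    (ℓ : ℕ) [h : P.LiesOver (Ideal.span {(ℓ : ℤ)})] : (ℓ : 𝓞 F) ∈ P := by
  have h1 : (ℓ : ℤ) ∈ P.under ℤ := by
    rw [← Ideal.over_def P (Ideal.span {(ℓ : ℤ)})]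
    exact Ideal.mem_span_singleton_self _
  rw [Ideal.under_def, Ideal.mem_comap] at h1
  simpa using h1

theorem natCast_mem_under_iff (P : Ideal (𝓞 L)) (n : ℕ) :
    (n : 𝓞 K) ∈ P.under (𝓞 K) ↔ (n : 𝓞 L) ∈ P := by
  rw [Ideal.under_def, Ideal.mem_comap, map_natCast]

include K in
theorem ramificationIdx_int_of_mem (hpq : p ≠ q) (P : Ideal (𝓞 L)) [hP : P.IsPrime]
    [P.LiesOver (Ideal.span {(q : ℤ)})] : P.ramificationIdx ℤ = q - 1 := by
  have := isCyclotomicExtension_mul (p := p) (q := q) K L hpq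
  have := IsCyclotomicExtension.Rat.ramificationIdx_eq (p * q) (p := q) (k := 0) (m := p) L P
    (by ring) (fun h => hpq ((Nat.prime_dvd_prime_iff_eq hq.out hp.out).mp h).symm)
  simpa using this

/-- `L/K` is totally ramified at the primes above `q`. -/
theorem ramificationIdx_of_mem (hpq : p ≠ q) (P : Ideal (𝓞 L)) [hP : P.IsPrime]
    (hqP : (q : 𝓞 L) ∈ P) : P.ramificationIdx (𝓞 K) = q - 1 := by
  have := liesOver_span_q (q := q) L P hqP
  have hPK : (P.under (𝓞 K)).IsPrime := Ideal.IsPrime.under (𝓞 K) P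
  have : P.LiesOver (P.under (𝓞 K)) := ⟨rfl⟩
  have : (P.under (𝓞 K)).LiesOver (Ideal.span {(q : ℤ)}) :=
    Ideal.LiesOver.tower_bot P (P.under (𝓞 K)) (Ideal.span {(q : ℤ)})
  have htower := Ideal.ramificationIdx_tower (R := ℤ) (P.under (𝓞 K)) P
  rw [ramificationIdx_int_of_mem (p := p) (q := q) K L hpq P] at htower
  have : NeZero p := ⟨hp.out.ne_zero⟩
  have h1 := IsCyclotomicExtension.Rat.ramificationIdx_eq_of_not_dvd (m := p) q K
    (P.under (𝓞 K)) (fun h => hpq ((Nat.prime_dvd_prime_iff_eq hq.out hp.out).mp h).symm)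
  rw [h1, one_mul] at htower
  exact htower.symm

/-- `L/K` is unramified at the primes not above `q`. -/
theorem ramificationIdx_of_notMem (hpq : p ≠ q) (P : Ideal (𝓞 L)) [hP : P.IsPrime]
    (hP0 : P ≠ ⊥) (hqP : (q : 𝓞 L) ∉ P) : P.ramificationIdx (𝓞 K) = 1 := by
  obtain ⟨ℓ, hℓ, hPℓ⟩ := exists_prime_liesOver P hP0
  have : Fact ℓ.Prime := ⟨hℓ⟩
  have hℓq : ℓ ≠ q := by
    rintro rfl
    exact hqP (natCast_mem_of_liesOver P ℓ)
  have hPK : (P.under (𝓞 K)).IsPrime := Ideal.IsPrime.under (𝓞 K) P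
  have : P.LiesOver (P.under (𝓞 K)) := ⟨rfl⟩
  have : (P.under (𝓞 K)).LiesOver (Ideal.span {(ℓ : ℤ)}) :=
    Ideal.LiesOver.tower_bot P (P.under (𝓞 K)) (Ideal.span {(ℓ : ℤ)})
  have htower := Ideal.ramificationIdx_tower (R := ℤ) (P.under (𝓞 K)) P
  have := isCyclotomicExtension_mul (p := p) (q := q) K L hpq
  have : NeZero (p * q) := ⟨Nat.mul_ne_zero hp.out.ne_zero hq.out.ne_zero⟩
  by_cases hℓp : ℓ = p
  · subst hℓp
    have h1 := IsCyclotomicExtension.Rat.ramificationIdx_eq (ℓ * q) (p := ℓ) (k := 0) (m := q) L P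
      (by ring) (fun h => hpq ((Nat.prime_dvd_prime_iff_eq hp.out hq.out).mp h))
    have h2 := IsCyclotomicExtension.Rat.ramificationIdx_eq_of_prime ℓ K (P.under (𝓞 K))
    rw [h1, h2] at htower
    simp only [pow_zero, one_mul] at htower
    have hpos : 0 < ℓ - 1 := Nat.sub_pos_of_lt hℓ.one_lt
    have : (ℓ - 1) * 1 = (ℓ - 1) * P.ramificationIdx (𝓞 K) := by rw [mul_one]; exact htower
    exact (Nat.eq_of_mul_eq_mul_left hpos this).symm
  · have h1 := IsCyclotomicExtension.Rat.ramificationIdx_eq_of_not_dvd (m := p * q) ℓ L P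
      (fun h => by
        rcases (Nat.Prime.dvd_mul hℓ).mp h with h | h
        · exact hℓp ((Nat.prime_dvd_prime_iff_eq hℓ hp.out).mp h)
        · exact hℓq ((Nat.prime_dvd_prime_iff_eq hℓ hq.out).mp h))
    rw [h1] at htower
    exact Nat.eq_one_of_mul_eq_one_left htower.symm

/-- The basic relation `e(P) * v_𝔭(N β) = (q - 1) * v_P(β)`. -/
theorem multiplicity_relation (hpq : p ≠ q) (hq1 : q ≡ 1 [MOD p]) (g : (ZMod q)ˣ)
    (hg : ∀ x, x ∈ Subgroup.zpowers g) {ζ : 𝓞 K} (hζ : IsPrimitiveRoot ζ p) {β : 𝓞 L}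
    (hβ0 : β ≠ 0) (hβ : eta (q := q) K L ζ * tauInt (p := p) K L hpq g β = β)
    (P : Ideal (𝓞 L)) [hP : P.IsPrime] (hP0 : P ≠ ⊥) :
    P.ramificationIdx (𝓞 K) *
        multiplicity (P.under (𝓞 K)) (Ideal.span {Algebra.intNorm (𝓞 K) (𝓞 L) β}) =
      (q - 1) * multiplicity P (Ideal.span {β}) := by
  have hv0 : P.under (𝓞 K) ≠ ⊥ := Ideal.under_ne_bot (𝓞 K) hP0
  have hvp : (P.under (𝓞 K)).IsPrime := Ideal.IsPrime.under (𝓞 K) P
  have : P.LiesOver (P.under (𝓞 K)) := ⟨rfl⟩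
  have hvprime : Prime (P.under (𝓞 K)) := Ideal.prime_of_isPrime hv0 hvp
  have hwprime : Prime P := Ideal.prime_of_isPrime hP0 hP
  have hγ0 : Algebra.intNorm (𝓞 K) (𝓞 L) β ≠ 0 := Algebra.intNorm_ne_zero.mpr hβ0
  have hI0 : Ideal.span {Algebra.intNorm (𝓞 K) (𝓞 L) β} ≠ ⊥ := by simpa using hγ0
  have hJ0 : Ideal.span {β} ≠ ⊥ := by simpa using hβ0
  have h := Ideal.IsDedekindDomain.emultiplicity_map_eq_ramificationIdx'_mul
    (v := P.under (𝓞 K)) (w := P) hI0 hvprime.irreducible hwprime.irreducible hP0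
  rw [map_span_intNorm (p := p) K L hpq hq1 g hg hζ hβ, emultiplicity_pow hwprime,
    Ideal.ramificationIdx'_eq_ramificationIdx (P.under (𝓞 K)) P hv0,
    (FiniteMultiplicity.of_prime_left hwprime hJ0).emultiplicity_eq_multiplicity,
    (FiniteMultiplicity.of_prime_left hvprime hI0).emultiplicity_eq_multiplicity] at h
  exact_mod_cast h.symm

include L in
/-- Existence of `γ ∈ 𝓞 K` (the norm of the Hilbert 90 element) whose valuations are divisible
by `q - 1` outside `q` and are discrete logarithms of `(ζ - 1)⁻¹` at the primes above `q`. -/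
theorem exists_gamma (hpq : p ≠ q) (hq1 : q ≡ 1 [MOD p]) (g : (ZMod q)ˣ)
    (hg : ∀ x, x ∈ Subgroup.zpowers g) {ζ : 𝓞 K} (hζ : IsPrimitiveRoot ζ p) :
    ∃ γ : 𝓞 K, γ ≠ 0 ∧
      (∀ P : Ideal (𝓞 K), P.IsPrime → P ≠ ⊥ → (q : 𝓞 K) ∉ P →
        (q - 1) ∣ multiplicity P (Ideal.span {γ})) ∧
      (∀ P : Ideal (𝓞 K), P.IsPrime → (q : 𝓞 K) ∈ P →
        (ζ - 1) * (((g : ZMod q).val : ℕ) : 𝓞 K) ^ (multiplicity P (Ideal.span {γ})) - 1 ∈ P) := by
  obtain ⟨β, hβ0, hβ⟩ := exists_beta (p := p) K L hpq hq1 g hg hζ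
  refine ⟨Algebra.intNorm (𝓞 K) (𝓞 L) β, Algebra.intNorm_ne_zero.mpr hβ0, ?_, ?_⟩
  · intro P hP hP0 hqP
    have hmax : P.IsMaximal := hP.isMaximal hP0
    obtain ⟨Q, hQmax, hQP⟩ := Ideal.exists_maximal_ideal_liesOver_of_isIntegral (S := 𝓞 L) P
    have hQ : Q.IsPrime := hQmax.isPrime
    have hQ0 : Q ≠ ⊥ := Ideal.ne_bot_of_liesOver_of_ne_bot hP0 Q
    have hund : Q.under (𝓞 K) = P := (Ideal.over_def Q P).symm
    have hqQ : (q : 𝓞 L) ∉ Q := by
      rw [← natCast_mem_under_iff K L, hund]; exact hqP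
    have hrel := multiplicity_relation (p := p) K L hpq hq1 g hg hζ hβ0 hβ Q hQ0
    rw [ramificationIdx_of_notMem (p := p) (q := q) K L hpq Q hQ0 hqQ, one_mul, hund] at hrel
    exact ⟨_, hrel⟩
  · intro P hP hqP
    have hP0 : P ≠ ⊥ := by
      rintro rfl
      have : (q : 𝓞 K) = 0 := by simpa using hqP
      exact q_ne_zero_int (q := q) K this
    have hmax : P.IsMaximal := hP.isMaximal hP0
    obtain ⟨Q, hQmax, hQP⟩ := Ideal.exists_maximal_ideal_liesOver_of_isIntegral (S := 𝓞 L) P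
    have hQ : Q.IsPrime := hQmax.isPrime
    have hQ0 : Q ≠ ⊥ := Ideal.ne_bot_of_liesOver_of_ne_bot hP0 Q
    have hund : Q.under (𝓞 K) = P := (Ideal.over_def Q P).symm
    have hqQ : (q : 𝓞 L) ∈ Q := by
      rw [← natCast_mem_under_iff K L, hund]; exact hqP
    have hrel := multiplicity_relation (p := p) K L hpq hq1 g hg hζ hβ0 hβ Q hQ0
    rw [ramificationIdx_of_mem (p := p) (q := q) K L hpq Q hqQ, hund] at hrel
    have hq1pos : 0 < q - 1 := Nat.sub_pos_of_lt hq.out.one_lt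
    have hmul : multiplicity P (Ideal.span {Algebra.intNorm (𝓞 K) (𝓞 L) β}) =
        multiplicity Q (Ideal.span {β}) := Nat.eq_of_mul_eq_mul_left hq1pos hrel
    rw [hmul]
    have hwprime : Prime Q := Ideal.prime_of_isPrime hQ0 hQ
    have hJ0 : Ideal.span {β} ≠ ⊥ := by simpa using hβ0
    have hfin : FiniteMultiplicity Q (Ideal.span {β}) := FiniteMultiplicity.of_prime_left hwprime hJ0
    have hmem : β ∈ Q ^ multiplicity Q (Ideal.span {β}) := by
      have := pow_multiplicity_dvd Q (Ideal.span {β})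
      rwa [Ideal.dvd_iff_le, Ideal.span_singleton_le_iff_mem] at this
    have hnmem : β ∉ Q ^ (multiplicity Q (Ideal.span {β}) + 1) := by
      have := hfin.not_pow_dvd_of_multiplicity_lt (Nat.lt_succ_self _)
      rwa [Ideal.dvd_iff_le, Ideal.span_singleton_le_iff_mem] at this
    have key := local_main (p := p) K L hpq g Q hqQ ζ β _ hmem hnmem hβ
    rw [← hund, Ideal.under_def, Ideal.mem_comap]
    exact key

end count

end Fermat.Agent.S14.Thaine430
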