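import Fermat.Agent.S14.Thaine430.Local

/-!
# S14 / THAINE block (helper430): Hilbert 90 and the norm of `β`
-/

namespace Fermat.Agent.S14.Thaine430

set_option linter.unusedSectionVars false

open NumberField Polynomial Ideal

section glob

variable {p q : ℕ} [hp : Fact p.Prime] [hq : Fact q.Prime]
variable (K L : Type) [Field K] [Field L] [NumberField K] [NumberField L] [Algebra K L]
  [IsCyclotomicExtension {p} ℚ K] [IsCyclotomicExtension {q} K L]

/-- `η = ζ - ζ_q ∈ 𝓞 L`. -/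
noncomputable def eta (ζ : 𝓞 K) : 𝓞 L := algebraMap (𝓞 K) (𝓞 L) ζ - zetaQ (q := q) K L

theorem coe_eta (ζ : 𝓞 K) :
    algebraMap (𝓞 L) L (eta (q := q) K L ζ) =
      algebraMap K L (ζ : K) - IsCyclotomicExtension.zeta q K L := by
  rw [eta, map_sub, ← IsScalarTower.algebraMap_apply (𝓞 K) (𝓞 L) L,
    IsScalarTower.algebraMap_apply (𝓞 K) K L]
  rfl

include p in
theorem norm_eta (hpq : p ≠ q) (hq1 : q ≡ 1 [MOD p]) {ζ : 𝓞 K} (hζ : IsPrimitiveRoot ζ p) :
    Algebra.norm K (algebraMap (𝓞 L) L (eta (q := q) K L ζ)) = 1 := by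
  rw [coe_eta]
  exact norm_zetaP_sub_zetaQ (p := p) K L hpq hq1
    (hζ.map_of_injective (f := algebraMap (𝓞 K) K) RingOfIntegers.coe_injective)

include p in
theorem isUnit_eta (hpq : p ≠ q) (hq1 : q ≡ 1 [MOD p]) {ζ : 𝓞 K} (hζ : IsPrimitiveRoot ζ p) :
    IsUnit (eta (q := q) K L ζ) := by
  rw [NumberField.isUnit_iff_norm, RingOfIntegers.coe_norm,
    ← Algebra.norm_norm (R := ℚ) (S := K) (A := L)]
  have := norm_eta (p := p) K L hpq hq1 hζ
  rw [show ((eta (q := q) K L ζ : 𝓞 L) : L) = algebraMap (𝓞 L) L (eta (q := q) K L ζ) from rfl,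
    this]
  simp

/-- Hilbert 90: there is `β ≠ 0` in `𝓞 L` with `(ζ - ζ_q) * τ β = β`. -/
theorem exists_beta (hpq : p ≠ q) (hq1 : q ≡ 1 [MOD p]) (g : (ZMod q)ˣ)
    (hg : ∀ x, x ∈ Subgroup.zpowers g) {ζ : 𝓞 K} (hζ : IsPrimitiveRoot ζ p) :
    ∃ β : 𝓞 L, β ≠ 0 ∧ eta (q := q) K L ζ * tauInt (p := p) K L hpq g β = β := by
  have := isCyclic_gal (p := p) (q := q) K L hpq
  have := IsCyclotomicExtension.isGalois {q} K L
  exact groupCohomology.exists_mul_galRestrict_of_norm_eq_one (A := 𝓞 K) (B := 𝓞 L)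
    (tauOf_generates (p := p) K L hpq g hg) (norm_eta (p := p) K L hpq hq1 hζ)

theorem map_span_singleton_algEquiv (σ : 𝓞 L ≃ₐ[𝓞 K] 𝓞 L) (x : 𝓞 L) :
    Ideal.map σ (Ideal.span {x}) = Ideal.span {σ x} := by
  rw [Ideal.map_span, Set.image_singleton]

/-- The ideal `(β)` is Galois-invariant. -/
theorem span_galRestrict_eq (hpq : p ≠ q) (hq1 : q ≡ 1 [MOD p]) (g : (ZMod q)ˣ)
    (hg : ∀ x, x ∈ Subgroup.zpowers g) {ζ : 𝓞 K} (hζ : IsPrimitiveRoot ζ p) {β : 𝓞 L}
    (hβ : eta (q := q) K L ζ * tauInt (p := p) K L hpq g β = β) (σ : Gal(L/K)) :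
    Ideal.span {galRestrict (𝓞 K) K L (𝓞 L) σ β} = Ideal.span {β} := by
  let H : Subgroup Gal(L/K) :=
    { carrier := {σ | Ideal.span {galRestrict (𝓞 K) K L (𝓞 L) σ β} = Ideal.span {β}}
      one_mem' := by simp
      mul_mem' := by
        intro a b ha hb
        simp only [Set.mem_ofPred_eq] at ha hb ⊢
        rw [map_mul, AlgEquiv.mul_apply, ← map_span_singleton_algEquiv, hb,
          map_span_singleton_algEquiv, ha]
      inv_mem' := by
        intro a ha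
        simp only [Set.mem_ofPred_eq] at ha ⊢
        have h1 : Ideal.map (galRestrict (𝓞 K) K L (𝓞 L) a⁻¹)
            (Ideal.span {galRestrict (𝓞 K) K L (𝓞 L) a β}) = Ideal.span {β} := by
          rw [map_span_singleton_algEquiv, ← AlgEquiv.mul_apply, ← map_mul]
          simp
        rw [ha, map_span_singleton_algEquiv] at h1
        exact h1 }
  have hτ : tauOf (p := p) K L hpq g ∈ H := by
    change Ideal.span {tauInt (p := p) K L hpq g β} = Ideal.span {β}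
    conv_rhs => rw [← hβ]
    exact (Ideal.span_singleton_mul_left_unit (isUnit_eta (p := p) K L hpq hq1 hζ) _).symm
  have hle : Subgroup.zpowers (tauOf (p := p) K L hpq g) ≤ H :=
    (Subgroup.zpowers_le).mpr hτ
  exact hle (tauOf_generates (p := p) K L hpq g hg σ)

include p in
theorem card_gal (hpq : p ≠ q) : Fintype.card Gal(L/K) = q - 1 := by
  have := IsCyclotomicExtension.isGalois {q} K L
  rw [← Nat.card_eq_fintype_card, IsGalois.card_aut_eq_finrank,
    finrank_mid_top (p := p) (q := q) K L hpq]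

theorem algebraMap_intNorm_eq_prod [IsGalois K L] (β : 𝓞 L) :
    algebraMap (𝓞 K) (𝓞 L) (Algebra.intNorm (𝓞 K) (𝓞 L) β) =
      ∏ σ : Gal(L/K), galRestrict (𝓞 K) K L (𝓞 L) σ β := by
  apply RingOfIntegers.ext
  change algebraMap (𝓞 L) L (algebraMap (𝓞 K) (𝓞 L) (Algebra.intNorm (𝓞 K) (𝓞 L) β)) =
    algebraMap (𝓞 L) L (∏ σ : Gal(L/K), galRestrict (𝓞 K) K L (𝓞 L) σ β)
  rw [← IsScalarTower.algebraMap_apply (𝓞 K) (𝓞 L) L, IsScalarTower.algebraMap_apply (𝓞 K) K L,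
    Algebra.algebraMap_intNorm (L := L), Algebra.norm_eq_prod_automorphisms, map_prod]
  refine Finset.prod_congr rfl fun σ _ => ?_
  exact (algebraMap_galRestrict_apply (𝓞 K) σ β).symm

/-- `N_{L/K}(β) 𝓞_L = (β)^(q-1)`. -/
theorem map_span_intNorm (hpq : p ≠ q) (hq1 : q ≡ 1 [MOD p]) (g : (ZMod q)ˣ)
    (hg : ∀ x, x ∈ Subgroup.zpowers g) {ζ : 𝓞 K} (hζ : IsPrimitiveRoot ζ p) {β : 𝓞 L}
    (hβ : eta (q := q) K L ζ * tauInt (p := p) K L hpq g β = β) :
    Ideal.map (algebraMap (𝓞 K) (𝓞 L)) (Ideal.span {Algebra.intNorm (𝓞 K) (𝓞 L) β}) =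
      Ideal.span {β} ^ (q - 1) := by
  have := IsCyclotomicExtension.isGalois {q} K L
  rw [Ideal.map_span, Set.image_singleton, algebraMap_intNorm_eq_prod K L,
    ← Ideal.prod_span_singleton]
  rw [Finset.prod_congr rfl fun σ _ => span_galRestrict_eq (p := p) K L hpq hq1 g hg hζ hβ σ]
  rw [Finset.prod_const, Finset.card_univ, card_gal (p := p) K L hpq]

end glob

end Fermat.Agent.S14.Thaine430
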