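import Mathlib

/-!
# S14 / THAINE block (helper430): abstract local lemma

`S` a Dedekind domain, `Q` a nonzero prime, `f : S →+* S` with `f x ≡ x mod π` for all `x`,
`π ∈ Q \ Q²`, `f π ≡ g π mod π²`.  Then `f x ≡ g ^ r x mod Q ^ (r+1)` for `x ∈ Q ^ r`, and if
`η * f β = β` with `β ∈ Q ^ r \ Q ^ (r+1)` then `η * g ^ r ≡ 1 mod Q`.
-/

namespace Fermat.Agent.S14.Thaine430

set_option linter.unusedSectionVars false

open Ideal

section abs

variable {S : Type*} [CommRing S] [IsDedekindDomain S]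

theorem map_pow_le_of_sub_mem (Q : Ideal S) (f : S →+* S) (π : S) (hπ : π ∈ Q)
    (h1 : ∀ x, f x - x ∈ Ideal.span {π}) (n : ℕ) {x : S} (hx : x ∈ Q ^ n) : f x ∈ Q ^ n := by
  have hQ : Q.map f ≤ Q := by
    rw [Ideal.map_le_iff_le_comap]
    intro y hy
    rw [Ideal.mem_comap]
    have : f y - y ∈ Q := (Ideal.span_singleton_le_iff_mem Q).mpr hπ (h1 y)
    have := Q.add_mem this hy
    simpa using this
  have h2 : (Q ^ n).map f ≤ Q ^ n := by
    rw [Ideal.map_pow]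
    exact Ideal.pow_right_mono hQ n
  exact h2 (Ideal.mem_map_of_mem f hx)

theorem pow_notMem_pow_succ (Q : Ideal S) [hQ : Q.IsPrime] (hQ0 : Q ≠ ⊥) (π : S) (hπ : π ∈ Q)
    (hπ2 : π ∉ Q ^ 2) (r : ℕ) : π ^ r ∉ Q ^ (r + 1) := by
  have hprime : Prime Q := Ideal.prime_of_isPrime hQ0 hQ
  have hπ0 : π ≠ 0 := by
    rintro rfl
    exact hπ2 (Ideal.zero_mem _)
  have hspan0 : Ideal.span {π} ≠ ⊥ := by simpa using hπ0
  have hem : emultiplicity Q (Ideal.span {π}) = 1 := by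
    have : emultiplicity Q (Ideal.span {π}) = ((1 : ℕ) : ℕ∞) := by
      rw [emultiplicity_eq_coe]
      refine ⟨?_, ?_⟩
      · rw [pow_one, Ideal.dvd_iff_le, Ideal.span_singleton_le_iff_mem]
        exact hπ
      · rw [Ideal.dvd_iff_le, Ideal.span_singleton_le_iff_mem]
        exact hπ2
    simpa using this
  intro hmem
  have hdvd : Q ^ (r + 1) ∣ Ideal.span {π} ^ r := by
    rw [Ideal.dvd_iff_le, Ideal.span_singleton_pow, Ideal.span_singleton_le_iff_mem]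
    exact hmem
  have h3 := le_emultiplicity_of_pow_dvd hdvd
  rw [emultiplicity_pow hprime, hem, mul_one] at h3
  have : ((r + 1 : ℕ) : ℕ∞) ≤ (r : ℕ∞) := h3
  rw [Nat.cast_le] at this
  omega

theorem map_sub_pow_mul_mem (Q : Ideal S) [hQ : Q.IsPrime] (hQ0 : Q ≠ ⊥) (f : S →+* S)
    (π g : S) (hπ : π ∈ Q) (hπ2 : π ∉ Q ^ 2)
    (h1 : ∀ x, f x - x ∈ Ideal.span {π})
    (h2 : f π - g * π ∈ Ideal.span {π ^ 2}) (r : ℕ) {x : S} (hx : x ∈ Q ^ r) :
    f x - g ^ r * x ∈ Q ^ (r + 1) := by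
  have hπr : π ^ r ∈ Q ^ r := Ideal.pow_mem_pow hπ r
  have hπr1 : π ^ (r + 1) ∈ Q ^ (r + 1) := Ideal.pow_mem_pow hπ (r + 1)
  have hspan : Ideal.span {π ^ (r + 1)} ≤ Q ^ (r + 1) :=
    (Ideal.span_singleton_le_iff_mem _).mpr hπr1
  obtain ⟨d, e, he, hde⟩ := Ideal.exists_mul_add_mem_pow_succ hQ0 (π ^ r) x hπr
    (pow_notMem_pow_succ Q hQ0 π hπ hπ2 r) hx
  obtain ⟨c, hc⟩ := Ideal.mem_span_singleton.mp h2
  -- f π = π * (g + π * c)
  have hfπ : f π = π * (g + π * c) := by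
    have : f π = g * π + π ^ 2 * c := by rw [← hc]; ring
    rw [this]; ring
  obtain ⟨t, ht⟩ := sub_dvd_pow_sub_pow (g + π * c) g r
  have ht' : (g + π * c) ^ r = g ^ r + π * c * t := by
    have : (g + π * c) - g = π * c := by ring
    rw [this] at ht
    rw [← ht]; ring
  obtain ⟨u, hu⟩ := Ideal.mem_span_singleton.mp (h1 d)
  have hfd : f d = d + π * u := by rw [← hu]; ring
  have hfe : f e ∈ Q ^ (r + 1) := map_pow_le_of_sub_mem Q f π hπ h1 (r + 1) he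
  have key : f x - g ^ r * x =
      π ^ (r + 1) * (c * t * (d + π * u) + g ^ r * u) + (f e - g ^ r * e) := by
    rw [← hde, map_add, map_mul, map_pow, hfπ, mul_pow, ht', hfd]
    ring
  rw [key]
  refine Ideal.add_mem _ ?_ (Ideal.sub_mem _ hfe (Ideal.mul_mem_left _ _ he))
  exact Ideal.mul_mem_right _ _ hπr1

theorem mul_pow_sub_one_mem (Q : Ideal S) [hQ : Q.IsPrime] (hQ0 : Q ≠ ⊥) (f : S →+* S)
    (π g : S) (hπ : π ∈ Q) (hπ2 : π ∉ Q ^ 2)
    (h1 : ∀ x, f x - x ∈ Ideal.span {π})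
    (h2 : f π - g * π ∈ Ideal.span {π ^ 2}) (r : ℕ) {β η : S} (hβ : β ∈ Q ^ r)
    (hβ' : β ∉ Q ^ (r + 1)) (hη : η * f β = β) :
    η * g ^ r - 1 ∈ Q := by
  have h3 := map_sub_pow_mul_mem Q hQ0 f π g hπ hπ2 h1 h2 r hβ
  have h4 : (η * g ^ r - 1) * β ∈ Q ^ (r + 1) := by
    have : (η * g ^ r - 1) * β = -(η * (f β - g ^ r * β)) := by
      rw [mul_sub, hη]; ring
    rw [this]
    exact Ideal.neg_mem_iff _ |>.mpr (Ideal.mul_mem_left _ _ h3)
  rcases Ideal.IsPrime.mul_mem_pow Q h4 with h | h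
  · exact h
  · exact absurd h hβ'

/-- Existence of the exact exponent of a nonzero element at a nonzero prime. -/
theorem exists_mem_pow_notMem_pow_succ (Q : Ideal S) [hQ : Q.IsPrime] {β : S} (hβ : β ≠ 0) :
    ∃ r : ℕ, β ∈ Q ^ r ∧ β ∉ Q ^ (r + 1) := by
  have hinf : (⨅ i : ℕ, Q ^ i) = ⊥ := Ideal.iInf_pow_eq_bot_of_isDomain Q hQ.ne_top
  have hex : ∃ n : ℕ, β ∉ Q ^ n := by
    by_contra hcon
    push Not at hcon
    have : β ∈ (⨅ i : ℕ, Q ^ i) := by
      rw [Ideal.mem_iInf]; exact hcon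
    rw [hinf] at this
    exact hβ (by simpa using this)
  classical
  have hn := Nat.find_spec hex
  have hmin := fun m (hm : m < Nat.find hex) => Nat.find_min hex hm
  rcases Nat.eq_zero_or_pos (Nat.find hex) with h0 | hpos
  · rw [h0] at hn
    simp at hn
  · refine ⟨Nat.find hex - 1, ?_, ?_⟩
    · have := hmin (Nat.find hex - 1) (by omega)
      push Not at this
      exact this
    · have e : Nat.find hex - 1 + 1 = Nat.find hex := by omega
      rw [e]; exact hn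

end abs

end Fermat.Agent.S14.Thaine430
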