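import Fermat.Agent.S14.Thaine430.Norm
import Fermat.Agent.S14.Thaine430.LocalAbs

/-!
# S14 / THAINE block (helper430): local analysis at the primes of `𝓞 L` above `q`
-/

namespace Fermat.Agent.S14.Thaine430

set_option linter.unusedSectionVars false

open NumberField Polynomial Ideal

section loc

variable {p q : ℕ} [hp : Fact p.Prime] [hq : Fact q.Prime]
variable (K L : Type) [Field K] [Field L] [NumberField K] [NumberField L] [Algebra K L]
  [IsCyclotomicExtension {p} ℚ K] [IsCyclotomicExtension {q} K L]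

/-- `ζ_q` as an element of `𝓞 L`. -/
noncomputable def zetaQ : 𝓞 L :=
  haveI : NeZero q := ⟨hq.out.ne_zero⟩
  (IsCyclotomicExtension.zeta_spec q K L).toInteger

theorem coe_zetaQ : ((zetaQ (q := q) K L : 𝓞 L) : L) = IsCyclotomicExtension.zeta q K L := rfl

theorem zetaQ_isPrimitiveRoot : IsPrimitiveRoot (zetaQ (q := q) K L) q :=
  haveI : NeZero q := ⟨hq.out.ne_zero⟩
  (IsCyclotomicExtension.zeta_spec q K L).toInteger_isPrimitiveRoot

/-- The restriction of `τ_g` to `𝓞 L`. -/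
noncomputable def tauInt (hpq : p ≠ q) (g : (ZMod q)ˣ) : 𝓞 L ≃ₐ[𝓞 K] 𝓞 L :=
  galRestrict (𝓞 K) K L (𝓞 L) (tauOf (p := p) K L hpq g)

theorem coe_tauInt (hpq : p ≠ q) (g : (ZMod q)ˣ) (x : 𝓞 L) :
    ((tauInt (p := p) K L hpq g x : 𝓞 L) : L) = tauOf (p := p) K L hpq g (x : L) :=
  algebraMap_galRestrict_apply (𝓞 K) (tauOf (p := p) K L hpq g) x

theorem tauInt_zetaQ (hpq : p ≠ q) (g : (ZMod q)ˣ) :
    tauInt (p := p) K L hpq g (zetaQ (q := q) K L) = zetaQ (q := q) K L ^ (g : ZMod q).val := by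
  apply RingOfIntegers.ext
  rw [coe_tauInt, coe_zetaQ, tauOf_zeta]
  simp [coe_zetaQ]

/-- `τ x ≡ x mod (ζ_q - 1)` for every `x ∈ 𝓞 L`. -/
theorem tauInt_sub_mem (hpq : p ≠ q) (g : (ZMod q)ˣ) (x : 𝓞 L) :
    tauInt (p := p) K L hpq g x - x ∈ Ideal.span {zetaQ (q := q) K L - 1} := by
  have := isCyclotomicExtension_mul (p := p) (q := q) K L hpq
  have : NeZero (p * q) := ⟨Nat.mul_ne_zero hp.out.ne_zero hq.out.ne_zero⟩
  have : NeZero p := ⟨hp.out.ne_zero⟩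
  have hζp := IsCyclotomicExtension.zeta_spec p ℚ K
  have hζ := isPrimitiveRoot_mul (p := p) (q := q) K L hpq hζp
  have htop := IsCyclotomicExtension.Rat.adjoin_singleton_eq_top hζ
  have hx : x ∈ Algebra.adjoin ℤ {hζ.toInteger} := by rw [htop]; trivial
  -- the generator is `ζ_p * ζ_q`
  have hgen : hζ.toInteger = algebraMap (𝓞 K) (𝓞 L) hζp.toInteger * zetaQ (q := q) K L := by
    apply RingOfIntegers.ext
    change algebraMap K L (IsCyclotomicExtension.zeta p ℚ K) * IsCyclotomicExtension.zeta q K L =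
      algebraMap (𝓞 L) L (algebraMap (𝓞 K) (𝓞 L) hζp.toInteger * zetaQ (q := q) K L)
    rw [map_mul, ← IsScalarTower.algebraMap_apply (𝓞 K) (𝓞 L) L,
      IsScalarTower.algebraMap_apply (𝓞 K) K L]
    rfl
  induction hx using Algebra.adjoin_induction with
  | mem y hy =>
    rw [Set.mem_singleton_iff] at hy
    subst hy
    rw [hgen, map_mul, AlgEquiv.commutes, tauInt_zetaQ, ← mul_sub]
    apply Ideal.mul_mem_left
    have h1 : zetaQ (q := q) K L ^ (g : ZMod q).val - zetaQ (q := q) K L =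
        (zetaQ (q := q) K L ^ (g : ZMod q).val - 1) - (zetaQ (q := q) K L - 1) := by ring
    rw [h1]
    refine Ideal.sub_mem _ ?_ (Ideal.mem_span_singleton_self _)
    exact Ideal.mem_span_singleton.mpr (sub_one_dvd_pow_sub_one _ _)
  | algebraMap r =>
    have : tauInt (p := p) K L hpq g (algebraMap ℤ (𝓞 L) r) = algebraMap ℤ (𝓞 L) r := by
      simp
    rw [this, sub_self]
    exact Ideal.zero_mem _
  | add y z _ _ hy hz =>
    have : tauInt (p := p) K L hpq g (y + z) - (y + z) =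
        (tauInt (p := p) K L hpq g y - y) + (tauInt (p := p) K L hpq g z - z) := by
      rw [map_add]; ring
    rw [this]
    exact Ideal.add_mem _ hy hz
  | mul y z _ _ hy hz =>
    have : tauInt (p := p) K L hpq g (y * z) - (y * z) =
        tauInt (p := p) K L hpq g y * (tauInt (p := p) K L hpq g z - z) +
          (tauInt (p := p) K L hpq g y - y) * z := by
      rw [map_mul]; ring
    rw [this]
    exact Ideal.add_mem _ (Ideal.mul_mem_left _ _ hz) (Ideal.mul_mem_right _ _ hy)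

theorem geom_sum_sub_mem {R : Type*} [CommRing R] (x : R) (n : ℕ) :
    (∑ i ∈ Finset.range n, x ^ i) - n ∈ Ideal.span {x - 1} := by
  have : (∑ i ∈ Finset.range n, x ^ i) - n = ∑ i ∈ Finset.range n, (x ^ i - 1) := by
    simp [Finset.sum_sub_distrib]
  rw [this]
  refine Ideal.sum_mem _ fun i _ => ?_
  exact Ideal.mem_span_singleton.mpr (sub_one_dvd_pow_sub_one _ _)

/-- `τ π ≡ g π mod π²` for `π = ζ_q - 1`. -/
theorem tauInt_pi_sub_mem (hpq : p ≠ q) (g : (ZMod q)ˣ) :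
    tauInt (p := p) K L hpq g (zetaQ (q := q) K L - 1) -
      (((g : ZMod q).val : ℕ) : 𝓞 L) * (zetaQ (q := q) K L - 1) ∈
      Ideal.span {(zetaQ (q := q) K L - 1) ^ 2} := by
  rw [map_sub, map_one, tauInt_zetaQ]
  set ζ := zetaQ (q := q) K L
  set n := (g : ZMod q).val
  obtain ⟨c, hc⟩ := Ideal.mem_span_singleton.mp (geom_sum_sub_mem ζ n)
  have h1 : ζ ^ n - 1 = (ζ - 1) * ∑ i ∈ Finset.range n, ζ ^ i := by
    rw [mul_comm]; exact (geom_sum_mul ζ n).symm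
  rw [h1]
  refine Ideal.mem_span_singleton.mpr ⟨c, ?_⟩
  have : (∑ i ∈ Finset.range n, ζ ^ i) = (n : 𝓞 L) + (ζ - 1) * c := by rw [← hc]; ring
  rw [this]; ring

/-- `(ζ_q - 1)^(q-1)` divides `q` in `𝓞 L`. -/
theorem pi_pow_dvd_q : (zetaQ (q := q) K L - 1) ^ (q - 1) ∣ (q : 𝓞 L) := by
  have hζ := zetaQ_isPrimitiveRoot (q := q) K L
  have : NeZero q := ⟨hq.out.ne_zero⟩
  have h1 := congrArg (eval 1) (cyclotomic_eq_prod_X_sub_primitiveRoots hζ)
  rw [eval_one_cyclotomic_prime, eval_prod] at h1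
  simp only [eval_sub, eval_X, eval_C] at h1
  rw [h1]
  have hcard : (primitiveRoots q (𝓞 L)).card = q - 1 := by
    rw [hζ.card_primitiveRoots, Nat.totient_prime hq.out]
  rw [← hcard, ← Finset.prod_const]
  apply Finset.prod_dvd_prod_of_dvd
  intro μ hμ
  rw [mem_primitiveRoots hq.out.pos] at hμ
  obtain ⟨i, _, hi⟩ := hζ.eq_pow_of_pow_eq_one hμ.pow_eq_one
  rw [← hi]
  have := sub_one_dvd_pow_sub_one (zetaQ (q := q) K L) i
  rwa [← dvd_neg, neg_sub] at this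

/-- A prime of `𝓞 L` containing `q` contains `ζ_q - 1`. -/
theorem pi_mem_of_q_mem (Q : Ideal (𝓞 L)) [hQ : Q.IsPrime] (hqQ : (q : 𝓞 L) ∈ Q) :
    zetaQ (q := q) K L - 1 ∈ Q := by
  have hζ := zetaQ_isPrimitiveRoot (q := q) K L
  have h := add_pow_prime_eq hq.out (zetaQ (q := q) K L - 1) 1
  rw [sub_add_cancel, hζ.pow_eq_one, one_pow] at h
  apply hQ.mem_of_pow_mem q
  have : (zetaQ (q := q) K L - 1) ^ q = -((q : 𝓞 L) * ((zetaQ (q := q) K L - 1) * 1 *
      ∑ k ∈ Finset.Ioo 0 q, (zetaQ (q := q) K L - 1) ^ (k - 1) * 1 ^ (q - k - 1) *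
        ((q.choose k / q : ℕ) : 𝓞 L))) := by
    linear_combination -h
  rw [this]
  exact Ideal.neg_mem_iff _ |>.mpr (Ideal.mul_mem_right _ _ hqQ)

/-- A prime of `𝓞 L` containing `q` lies over `(q) ⊂ ℤ`. -/
theorem liesOver_span_q (Q : Ideal (𝓞 L)) [hQ : Q.IsPrime] (hqQ : (q : 𝓞 L) ∈ Q) :
    Q.LiesOver (Ideal.span {(q : ℤ)}) := by
  rw [Ideal.liesOver_iff]
  have hmax : (Ideal.span {(q : ℤ)}).IsMaximal :=
    PrincipalIdealRing.isMaximal_of_irreducible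
      (Nat.prime_iff_prime_int.mp hq.out).irreducible
  refine hmax.eq_of_le ?_ ?_
  · rw [Ideal.under_def]
    exact Ideal.comap_ne_top _ hQ.ne_top
  · rw [Ideal.span_singleton_le_iff_mem, Ideal.under_def, Ideal.mem_comap]
    simpa using hqQ

theorem q_ne_zero_int : (q : 𝓞 L) ≠ 0 := by
  exact_mod_cast hq.out.ne_zero

theorem ne_bot_of_q_mem (Q : Ideal (𝓞 L)) [hQ : Q.IsPrime] (hqQ : (q : 𝓞 L) ∈ Q) : Q ≠ ⊥ := by
  rintro rfl
  exact q_ne_zero_int (q := q) L (by simpa using hqQ)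

include K in
/-- `ζ_q - 1` has valuation exactly one at every prime of `𝓞 L` above `q`. -/
theorem pi_notMem_sq (hpq : p ≠ q) (Q : Ideal (𝓞 L)) [hQ : Q.IsPrime]
    (hqQ : (q : 𝓞 L) ∈ Q) : zetaQ (q := q) K L - 1 ∉ Q ^ 2 := by
  have := isCyclotomicExtension_mul (p := p) (q := q) K L hpq
  have := liesOver_span_q (q := q) L Q hqQ
  have hQ0 := ne_bot_of_q_mem (q := q) L Q hqQ
  have hprime : Prime Q := Ideal.prime_of_isPrime hQ0 hQ
  have he : Q.ramificationIdx ℤ = q - 1 := by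
    have := IsCyclotomicExtension.Rat.ramificationIdx_eq (p * q) (p := q) (k := 0) (m := p) L Q
      (by ring) (fun h => hpq ((Nat.prime_dvd_prime_iff_eq hq.out hp.out).mp h).symm)
    simpa using this
  have hmap : Ideal.map (algebraMap ℤ (𝓞 L)) (Ideal.span {(q : ℤ)}) = Ideal.span {(q : 𝓞 L)} := by
    rw [Ideal.map_span, Set.image_singleton]
    simp
  have hne : Ideal.map (algebraMap ℤ (𝓞 L)) (Ideal.span {(q : ℤ)}) ≠ ⊥ := by
    rw [hmap]
    simpa using q_ne_zero_int (q := q) L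
  have hmul := Ideal.IsDedekindDomain.ramificationIdx_eq_multiplicity (Ideal.span {(q : ℤ)}) Q hne
  rw [he, hmap] at hmul
  intro hmem
  have h2 : (zetaQ (q := q) K L - 1) ^ (q - 1) ∈ Q ^ (2 * (q - 1)) := by
    rw [pow_mul]
    exact Ideal.pow_mem_pow hmem _
  obtain ⟨c, hc⟩ := pi_pow_dvd_q (q := q) K L
  have h3 : (q : 𝓞 L) ∈ Q ^ (2 * (q - 1)) := by
    rw [hc]; exact Ideal.mul_mem_right _ _ h2
  have h4 : Q ^ (2 * (q - 1)) ∣ Ideal.span {(q : 𝓞 L)} := by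
    rw [Ideal.dvd_iff_le, Ideal.span_singleton_le_iff_mem]; exact h3
  have hfin : FiniteMultiplicity Q (Ideal.span {(q : 𝓞 L)}) :=
    FiniteMultiplicity.of_prime_left hprime (by simpa using q_ne_zero_int (q := q) L)
  have h5 := hfin.le_multiplicity_of_pow_dvd h4
  have := hq.out.two_le
  omega

/-- Main local statement: if `(ζ - ζ_q) * τ β = β` and `β` has exact valuation `r` at a prime
`Q` of `𝓞 L` above `q`, then `(ζ - 1) * g ^ r ≡ 1 mod Q`. -/
theorem local_main (hpq : p ≠ q) (g : (ZMod q)ˣ) (Q : Ideal (𝓞 L)) [hQ : Q.IsPrime]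
    (hqQ : (q : 𝓞 L) ∈ Q) (ζ : 𝓞 K) (β : 𝓞 L) (r : ℕ) (hβ : β ∈ Q ^ r) (hβ' : β ∉ Q ^ (r + 1))
    (hη : (algebraMap (𝓞 K) (𝓞 L) ζ - zetaQ (q := q) K L) * tauInt (p := p) K L hpq g β = β) :
    algebraMap (𝓞 K) (𝓞 L) ((ζ - 1) * (((g : ZMod q).val : ℕ) : 𝓞 K) ^ r - 1) ∈ Q := by
  have hQ0 := ne_bot_of_q_mem (q := q) L Q hqQ
  have hπ := pi_mem_of_q_mem (q := q) K L Q hqQ
  have hπ2 := pi_notMem_sq (p := p) (q := q) K L hpq Q hqQ
  have key := mul_pow_sub_one_mem Q hQ0 (tauInt (p := p) K L hpq g : 𝓞 L →+* 𝓞 L)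
    (zetaQ (q := q) K L - 1) (((g : ZMod q).val : ℕ) : 𝓞 L) hπ hπ2
    (fun x => tauInt_sub_mem (p := p) K L hpq g x)
    (tauInt_pi_sub_mem (p := p) K L hpq g) r hβ hβ' hη
  have : algebraMap (𝓞 K) (𝓞 L) ((ζ - 1) * (((g : ZMod q).val : ℕ) : 𝓞 K) ^ r - 1) =
      ((algebraMap (𝓞 K) (𝓞 L) ζ - zetaQ (q := q) K L) * (((g : ZMod q).val : ℕ) : 𝓞 L) ^ r - 1)
        + (zetaQ (q := q) K L - 1) * (((g : ZMod q).val : ℕ) : 𝓞 L) ^ r := by
    simp only [map_sub, map_mul, map_pow, map_one, map_natCast]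
    ring
  rw [this]
  exact Ideal.add_mem _ key (Ideal.mul_mem_right _ _ hπ)

end loc

end Fermat.Agent.S14.Thaine430
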