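import Fermat.Agent.S14.Thaine430.Setup

/-!
# S14 / THAINE block (helper430): `N_{L/K}(ζ_p - ζ_q) = 1`
-/

namespace Fermat.Agent.S14.Thaine430

set_option linter.unusedSectionVars false

open NumberField Polynomial

section norm

variable {p q : ℕ} [hp : Fact p.Prime] [hq : Fact q.Prime]
variable (K L : Type) [Field K] [Field L] [NumberField K] [NumberField L] [Algebra K L]
  [IsCyclotomicExtension {p} ℚ K] [IsCyclotomicExtension {q} K L]

include p in
/-- `N_{L/K}(a - ζ_q) = Φ_q(a)` for `a ∈ K`. -/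
theorem norm_sub_zeta (hpq : p ≠ q) (a : K) :
    Algebra.norm K (algebraMap K L a - IsCyclotomicExtension.zeta q K L) =
      eval a (cyclotomic q K) := by
  have hζ := IsCyclotomicExtension.zeta_spec q K L
  have hirr := irreducible_cyclotomic (p := p) (q := q) K L hpq
  have : NeZero q := ⟨hq.out.ne_zero⟩
  have := IsCyclotomicExtension.neZero' q K L
  let E := AlgebraicClosure L
  obtain ⟨z, hz⟩ := IsAlgClosed.exists_root _ (degree_cyclotomic_pos q E (NeZero.pos _)).ne.symm
  apply (algebraMap K E).injective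
  let := IsCyclotomicExtension.finiteDimensional {q} K L
  let := IsCyclotomicExtension.isGalois {q} K L
  rw [Algebra.norm_eq_prod_embeddings]
  have Hprod : (Finset.univ.prod fun σ : L →ₐ[K] E =>
      σ (algebraMap K L a - IsCyclotomicExtension.zeta q K L)) =
      eval (algebraMap K E a) (cyclotomic' q E) := by
    rw [cyclotomic', eval_prod, ← @Finset.prod_attach E E, ← Finset.univ_eq_attach]
    refine Fintype.prod_equiv (hζ.embeddingsEquivPrimitiveRoots E hirr) _ _ fun σ => ?_
    simp [IsScalarTower.algebraMap_apply K L E]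
  have : NeZero (q : E) := NeZero.of_faithfulSMul K _ q
  rw [Hprod, cyclotomic', ← cyclotomic_eq_prod_X_sub_primitiveRoots (isRoot_cyclotomic_iff.1 hz),
    ← map_cyclotomic q (algebraMap K E), eval_map_algebraMap, aeval_algebraMap_apply,
    Polynomial.aeval_def, Polynomial.eval₂_eq_eval_map]
  simp

include p in
/-- If `a ∈ K`, `a ^ q = a`, `a ≠ 1`, then `N_{L/K}(a - ζ_q) = 1`. -/
theorem norm_sub_zeta_eq_one (hpq : p ≠ q) (a : K) (ha : a ^ q = a) (ha1 : a ≠ 1) :
    Algebra.norm K (algebraMap K L a - IsCyclotomicExtension.zeta q K L) = 1 := by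
  rw [norm_sub_zeta (p := p) K L hpq a]
  have h := congrArg (eval a) (cyclotomic_prime_mul_X_sub_one K q)
  simp only [eval_mul, eval_sub, eval_X, eval_one, eval_pow, ha] at h
  have h1 : a - 1 ≠ 0 := sub_ne_zero.mpr ha1
  exact mul_right_cancel₀ h1 (by rw [h, one_mul])

/-- A primitive `p`-th root of unity `a` satisfies `a ^ q = a` when `q ≡ 1 mod p`. -/
theorem pow_eq_self_of_modEq {M : Type*} [Monoid M] {a : M} (ha : a ^ p = 1)
    (hq1 : q ≡ 1 [MOD p]) : a ^ q = a := by
  have h1 : 1 ≤ q := hq.out.one_le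
  obtain ⟨k, hk⟩ := (Nat.modEq_iff_dvd' h1).mp hq1.symm
  have : q = 1 + p * k := by omega
  rw [this, pow_add, pow_one, pow_mul, ha, one_pow, mul_one]

include p in
/-- `N_{L/K}(ζ_p - ζ_q) = 1` when `q ≡ 1 mod p`. -/
theorem norm_zetaP_sub_zetaQ (hpq : p ≠ q) (hq1 : q ≡ 1 [MOD p]) {ζ : K}
    (hζ : IsPrimitiveRoot ζ p) :
    Algebra.norm K (algebraMap K L ζ - IsCyclotomicExtension.zeta q K L) = 1 :=
  norm_sub_zeta_eq_one (p := p) K L hpq ζ
    (pow_eq_self_of_modEq (p := p) (q := q) hζ.pow_eq_one hq1)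
    (hζ.ne_one hp.out.one_lt)

end norm

end Fermat.Agent.S14.Thaine430
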