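import Mathlib

/-!
# S14 / THAINE block (helper430): setup of the tower `ℚ ⊂ K = ℚ(ζ_p) ⊂ L = K(ζ_q)`

`K` is a `p`-th cyclotomic extension of `ℚ`, `L` a `q`-th cyclotomic extension of `K`,
`p ≠ q` primes.  We show that `L` is a `p*q`-th cyclotomic extension of `ℚ`, that
`[L : K] = q - 1`, that `cyclotomic q K` is irreducible, and that `Gal(L/K)` is cyclic,
generated by any `τ` with `τ ζ_q = ζ_q ^ g`, `g` a generator of `(ZMod q)ˣ`.
-/

namespace Fermat.Agent.S14.Thaine430

set_option linter.unusedSectionVars false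

open NumberField Polynomial

section setup

variable {p q : ℕ} [hp : Fact p.Prime] [hq : Fact q.Prime]
variable (K L : Type) [Field K] [Field L] [NumberField K] [NumberField L] [Algebra K L]
  [IsCyclotomicExtension {p} ℚ K] [IsCyclotomicExtension {q} K L]

/-- The primitive `p`-th root of unity of `K`, viewed in `L`. -/
theorem isPrimitiveRoot_zetaP_map :
    IsPrimitiveRoot (algebraMap K L (IsCyclotomicExtension.zeta p ℚ K)) p :=
  (IsCyclotomicExtension.zeta_spec p ℚ K).map_of_injective (algebraMap K L).injective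

/-- `ζ_p ζ_q` is a primitive `p*q`-th root of unity of `L`. -/
theorem isPrimitiveRoot_mul (hpq : p ≠ q) {ζ : K} (hζ : IsPrimitiveRoot ζ p) :
    IsPrimitiveRoot (algebraMap K L ζ * IsCyclotomicExtension.zeta q K L) (p * q) := by
  have hcop : Nat.Coprime p q := (Nat.coprime_primes hp.out hq.out).mpr hpq
  have hζp := hζ.map_of_injective (algebraMap K L).injective
  have hζq := IsCyclotomicExtension.zeta_spec q K L
  have ho : orderOf (algebraMap K L ζ * IsCyclotomicExtension.zeta q K L) = p * q := by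
    rw [(Commute.all _ _).orderOf_mul_eq_mul_orderOf_of_coprime, ← hζp.eq_orderOf,
      ← hζq.eq_orderOf]
    rwa [← hζp.eq_orderOf, ← hζq.eq_orderOf]
  rw [← ho]
  exact IsPrimitiveRoot.orderOf _

include K in
/-- `L` is a `p*q`-th cyclotomic extension of `ℚ`. -/
theorem isCyclotomicExtension_mul (hpq : p ≠ q) : IsCyclotomicExtension {p * q} ℚ L := by
  have h1 : IsCyclotomicExtension ({p} ∪ {q}) ℚ L :=
    IsCyclotomicExtension.trans {p} {q} ℚ K L (algebraMap K L).injective
  have hζ := isPrimitiveRoot_mul (p := p) (q := q) K L hpq (IsCyclotomicExtension.zeta_spec p ℚ K)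
  have h2 : IsCyclotomicExtension ({p} ∪ {q} ∪ {p * q}) ℚ L :=
    IsCyclotomicExtension.union_of_isPrimitiveRoot _ _ _ hζ
  have h3 : IsCyclotomicExtension ({p * q} ∪ {p} ∪ {q}) ℚ L := by
    have : ({p * q} ∪ {p} ∪ {q} : Set ℕ) = {p} ∪ {q} ∪ {p * q} := by
      ext x; simp only [Set.mem_union, Set.mem_singleton_iff]; tauto
    rw [this]; exact h2
  have hne : p * q ≠ 0 := Nat.mul_ne_zero hp.out.ne_zero hq.out.ne_zero
  have h4 : IsCyclotomicExtension ({p * q} ∪ {p}) ℚ L :=
    (IsCyclotomicExtension.iff_union_of_dvd (n := q) ℚ L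
      ⟨p * q, by simp, hne, Dvd.intro_left p rfl⟩).mpr h3
  exact (IsCyclotomicExtension.iff_union_of_dvd (n := p) ℚ L
      ⟨p * q, by simp, hne, Dvd.intro q rfl⟩).mpr h4

include K in
theorem finrank_rat_top (hpq : p ≠ q) : Module.finrank ℚ L = (p - 1) * (q - 1) := by
  have := isCyclotomicExtension_mul (p := p) (q := q) K L hpq
  have : NeZero (p * q) := ⟨Nat.mul_ne_zero hp.out.ne_zero hq.out.ne_zero⟩
  rw [IsCyclotomicExtension.Rat.finrank (p * q) L,
    Nat.totient_mul ((Nat.coprime_primes hp.out hq.out).mpr hpq),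
    Nat.totient_prime hp.out, Nat.totient_prime hq.out]

theorem finrank_rat_mid : Module.finrank ℚ K = p - 1 := by
  rw [IsCyclotomicExtension.Rat.finrank p K, Nat.totient_prime hp.out]

/-- `[L : K] = q - 1`. -/
theorem finrank_mid_top (hpq : p ≠ q) : Module.finrank K L = q - 1 := by
  have h1 := Module.finrank_mul_finrank ℚ K L
  rw [finrank_rat_top (p := p) (q := q) K L hpq, finrank_rat_mid (p := p) K] at h1
  have hp1 : 0 < p - 1 := Nat.sub_pos_of_lt hp.out.one_lt
  exact Nat.eq_of_mul_eq_mul_left hp1 h1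

include L in
/-- `cyclotomic q K` is irreducible over `K = ℚ(ζ_p)`. -/
theorem irreducible_cyclotomic (hpq : p ≠ q) : Irreducible (cyclotomic q K) := by
  have hζ := IsCyclotomicExtension.zeta_spec q K L
  set ζ := IsCyclotomicExtension.zeta q K L with hζdef
  have hint : IsIntegral K ζ := (IsCyclotomicExtension.integral {q} K L).isIntegral ζ
  have hdvd : minpoly K ζ ∣ cyclotomic q K := by
    apply minpoly.dvd
    have := hζ.isRoot_cyclotomic hq.out.pos
    rwa [IsRoot.def, ← map_cyclotomic q (algebraMap K L), eval_map_algebraMap] at this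
  have hdeg : (minpoly K ζ).natDegree = q - 1 := by
    rw [← finrank_mid_top (p := p) (q := q) K L hpq]
    have htop : IntermediateField.adjoin K {ζ} = ⊤ := by
      have h1 := IsCyclotomicExtension.adjoin_primitive_root_eq_top (n := q) (A := K) hζ
      rw [← IntermediateField.toSubalgebra_inj, IntermediateField.top_toSubalgebra, ← h1]
      exact IntermediateField.adjoin_simple_toSubalgebra_of_isAlgebraic hint.isAlgebraic
    rw [← IntermediateField.adjoin.finrank hint, htop, IntermediateField.finrank_top']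
  have heq : cyclotomic q K = minpoly K ζ := by
    refine eq_of_monic_of_dvd_of_natDegree_le (minpoly.monic hint) (cyclotomic.monic q K) hdvd ?_
    rw [hdeg, natDegree_cyclotomic, Nat.totient_prime hq.out]
  rw [heq]
  exact minpoly.irreducible hint

/-- The isomorphism `Gal(L/K) ≃ (ZMod q)ˣ`. -/
noncomputable def galEquiv (hpq : p ≠ q) : Gal(L/K) ≃* (ZMod q)ˣ :=
  haveI : NeZero q := ⟨hq.out.ne_zero⟩
  IsCyclotomicExtension.autEquivPow L (irreducible_cyclotomic (p := p) (q := q) K L hpq)

theorem isCyclic_gal (hpq : p ≠ q) : IsCyclic Gal(L/K) :=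
  isCyclic_of_surjective (galEquiv (p := p) (q := q) K L hpq).symm
    (galEquiv (p := p) (q := q) K L hpq).symm.surjective

/-- The automorphism of `L/K` attached to a unit `g` of `ZMod q`. -/
noncomputable def tauOf (hpq : p ≠ q) (g : (ZMod q)ˣ) : Gal(L/K) :=
  (galEquiv (p := p) (q := q) K L hpq).symm g

theorem tauOf_zeta (hpq : p ≠ q) (g : (ZMod q)ˣ) :
    tauOf (p := p) K L hpq g (IsCyclotomicExtension.zeta q K L) =
      IsCyclotomicExtension.zeta q K L ^ (g : ZMod q).val := by
  have : NeZero q := ⟨hq.out.ne_zero⟩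
  have h := (IsCyclotomicExtension.zeta_spec q K L).autToPow_spec K
    (tauOf (p := p) K L hpq g)
  have key : (IsCyclotomicExtension.zeta_spec q K L).autToPow K
      (tauOf (p := p) K L hpq g) = g :=
    (galEquiv (p := p) (q := q) K L hpq).apply_symm_apply g
  rw [key] at h
  exact h.symm

theorem tauOf_generates (hpq : p ≠ q) (g : (ZMod q)ˣ) (hg : ∀ x, x ∈ Subgroup.zpowers g) :
    ∀ σ : Gal(L/K), σ ∈ Subgroup.zpowers (tauOf (p := p) K L hpq g) := by
  intro σ
  obtain ⟨k, hk⟩ := Subgroup.mem_zpowers_iff.mp (hg (galEquiv (p := p) (q := q) K L hpq σ))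
  refine Subgroup.mem_zpowers_iff.mpr ⟨k, ?_⟩
  apply (galEquiv (p := p) (q := q) K L hpq).injective
  rw [map_zpow, ← hk]
  simp [tauOf]

end setup

end Fermat.Agent.S14.Thaine430
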