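import Fermat.Agent.S14.Thaine430.Count
import Fermat.Agent.S14.Thaine430.ClassAbs

/-!
# S14 / THAINE block (helper430): Thaine's relation, raw form

`K = ℚ(ζ_p)`, `q ≡ 1 mod p` prime, `g` a generator of `(ZMod q)ˣ`.  If `r P` is a discrete
logarithm of `(ζ - 1)⁻¹` at each prime `P` of `𝓞 K` above `q`, i.e.
`(ζ - 1) * g ^ (r P) ≡ 1 mod P`, then `∏_{P ∣ q} [P] ^ (r P)` is a `(q-1)`-th power in the class
group of `K`.
-/

namespace Fermat.Agent.S14.Thaine430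

set_option linter.unusedSectionVars false

open NumberField Polynomial Ideal

section thaine

variable {p q : ℕ} [hp : Fact p.Prime] [hq : Fact q.Prime]
variable (K : Type) [Field K] [NumberField K] [IsCyclotomicExtension {p} ℚ K]

/-- `(ζ - 1)^(q-1)` divides `q` for a primitive `q`-th root of unity `ζ` in a domain. -/
theorem sub_one_pow_dvd_prime {R : Type*} [CommRing R] [IsDomain R] {ζ : R}
    (hζ : IsPrimitiveRoot ζ q) : (ζ - 1) ^ (q - 1) ∣ (q : R) := by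
  have : NeZero q := ⟨hq.out.ne_zero⟩
  have h1 := congrArg (eval 1) (cyclotomic_eq_prod_X_sub_primitiveRoots hζ)
  rw [eval_one_cyclotomic_prime, eval_prod] at h1
  simp only [eval_sub, eval_X, eval_C] at h1
  rw [h1]
  have hcard : (primitiveRoots q R).card = q - 1 := by
    rw [hζ.card_primitiveRoots, Nat.totient_prime hq.out]
  rw [← hcard, ← Finset.prod_const]
  apply Finset.prod_dvd_prod_of_dvd
  intro μ hμ
  rw [mem_primitiveRoots hq.out.pos] at hμ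
  obtain ⟨i, _, hi⟩ := hζ.eq_pow_of_pow_eq_one hμ.pow_eq_one
  rw [← hi]
  have := sub_one_dvd_pow_sub_one ζ i
  rwa [← dvd_neg, neg_sub] at this

/-- Two distinct rational primes cannot lie in the same proper ideal. -/
theorem natCast_notMem_of_ne {R : Type*} [CommRing R] (P : Ideal R) (hP : P ≠ ⊤)
    (hpq : p ≠ q) (hqP : (q : R) ∈ P) : (p : R) ∉ P := by
  intro hpP
  have hcop : Nat.Coprime p q := (Nat.coprime_primes hp.out hq.out).mpr hpq
  obtain ⟨a, b, hab⟩ := Nat.isCoprime_iff_coprime.mpr hcop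
  apply hP
  rw [Ideal.eq_top_iff_one]
  have : (1 : R) = (a : R) * (p : R) + (b : R) * (q : R) := by
    have := congrArg (Int.cast : ℤ → R) hab
    push_cast at this
    exact this.symm
  rw [this]
  exact Ideal.add_mem _ (Ideal.mul_mem_left _ _ hpP) (Ideal.mul_mem_left _ _ hqP)

theorem zeta_sub_one_notMem {R : Type*} [CommRing R] [IsDomain R] {ζ : R}
    (hζ : IsPrimitiveRoot ζ p) (P : Ideal R) (hP : P ≠ ⊤)
    (hpq : p ≠ q) (hqP : (q : R) ∈ P) : ζ - 1 ∉ P := by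
  intro h
  apply natCast_notMem_of_ne (p := p) (q := q) P hP hpq hqP
  obtain ⟨c, hc⟩ := sub_one_pow_dvd_prime (q := p) hζ
  rw [hc]
  apply Ideal.mul_mem_right
  have hp1 : p - 1 ≠ 0 := Nat.sub_ne_zero_of_lt hp.out.one_lt
  exact Ideal.pow_mem_of_mem _ h _ (Nat.pos_of_ne_zero hp1)

theorem orderOf_generator (g : (ZMod q)ˣ) (hg : ∀ x, x ∈ Subgroup.zpowers g) :
    orderOf g = q - 1 := by
  have : NeZero q := ⟨hq.out.ne_zero⟩
  rw [orderOf_eq_card_of_forall_mem_zpowers hg, Nat.card_eq_fintype_card,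
    ZMod.card_units_eq_totient, Nat.totient_prime hq.out]

/-- If `g ^ a ≡ g ^ b` modulo a prime of `𝓞 K` above `q`, then `a ≡ b mod (q - 1)`. -/
theorem modEq_of_pow_sub_pow_mem (g : (ZMod q)ˣ) (hg : ∀ x, x ∈ Subgroup.zpowers g)
    (P : Ideal (𝓞 K)) [hP : P.IsPrime] (hqP : (q : 𝓞 K) ∈ P) (a b : ℕ)
    (h : (((g : ZMod q).val : ℕ) : 𝓞 K) ^ a - (((g : ZMod q).val : ℕ) : 𝓞 K) ^ b ∈ P) :
    a ≡ b [MOD q - 1] := by
  have : NeZero q := ⟨hq.out.ne_zero⟩
  have hlies := liesOver_span_q (q := q) K P hqP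
  have h1 : (((g : ZMod q).val : ℤ) ^ a - ((g : ZMod q).val : ℤ) ^ b : ℤ) ∈ P.under ℤ := by
    rw [Ideal.under_def, Ideal.mem_comap]
    simpa using h
  rw [← Ideal.over_def P (Ideal.span {(q : ℤ)}), Ideal.mem_span_singleton] at h1
  have h2 : (((((g : ZMod q).val : ℤ) ^ a - ((g : ZMod q).val : ℤ) ^ b : ℤ)) : ZMod q) = 0 :=
    (ZMod.intCast_zmod_eq_zero_iff_dvd _ q).mpr h1
  push_cast at h2
  rw [ZMod.natCast_zmod_val, sub_eq_zero] at h2
  have h3 : g ^ a = g ^ b := Units.ext (by simpa using h2)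
  have := pow_eq_pow_iff_modEq.mp h3
  rwa [orderOf_generator g hg] at this

/-- **Thaine's relation, raw form.** -/
theorem thaine_primes (hpq : p ≠ q) (hq1 : q ≡ 1 [MOD p]) (g : (ZMod q)ˣ)
    (hg : ∀ x, x ∈ Subgroup.zpowers g) {ζ : 𝓞 K} (hζ : IsPrimitiveRoot ζ p)
    (s : Finset (Ideal (𝓞 K))) (hs : ∀ P ∈ s, P.IsPrime ∧ (q : 𝓞 K) ∈ P)
    (hs' : ∀ P : Ideal (𝓞 K), P.IsPrime → (q : 𝓞 K) ∈ P → P ∈ s)
    (r : Ideal (𝓞 K) → ℕ)
    (hr : ∀ P ∈ s, (ζ - 1) * (((g : ZMod q).val : ℕ) : 𝓞 K) ^ (r P) - 1 ∈ P) :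
    ∃ J : ClassGroup (𝓞 K), ∏ P ∈ s, idealClass P ^ r P = J ^ (q - 1) := by
  obtain ⟨γ, hγ0, hγ1, hγ2⟩ := exists_gamma (p := p) K (CyclotomicField q K) hpq hq1 g hg hζ
  have hs0 : ∀ P ∈ s, P.IsPrime ∧ P ≠ ⊥ := by
    intro P hP
    refine ⟨(hs P hP).1, ?_⟩
    rintro rfl
    have : (q : 𝓞 K) = 0 := by simpa using (hs ⊥ hP).2
    exact q_ne_zero_int (q := q) K this
  obtain ⟨J, hJ⟩ := prod_idealClass_pow_eq_pow γ hγ0 (q - 1) s hs0
    (fun P hP hP0 hPs => hγ1 P hP hP0 fun hq' => hPs (hs' P hP hq'))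
  -- compare the exponents
  have hmod : ∀ P ∈ s, ∃ k : ℤ, (r P : ℤ) = multiplicity P (Ideal.span {γ}) + (q - 1 : ℕ) * k := by
    intro P hP
    have hPp := (hs P hP).1
    have hqP := (hs P hP).2
    have h1 := hγ2 P hPp hqP
    have h2 := hr P hP
    have h3 : (ζ - 1) * ((((g : ZMod q).val : ℕ) : 𝓞 K) ^ (r P) -
        (((g : ZMod q).val : ℕ) : 𝓞 K) ^ (multiplicity P (Ideal.span {γ}))) ∈ P := by
      have := Ideal.sub_mem _ h2 h1
      have e : (ζ - 1) * ((((g : ZMod q).val : ℕ) : 𝓞 K) ^ (r P) -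
        (((g : ZMod q).val : ℕ) : 𝓞 K) ^ (multiplicity P (Ideal.span {γ}))) =
          ((ζ - 1) * (((g : ZMod q).val : ℕ) : 𝓞 K) ^ (r P) - 1) -
          ((ζ - 1) * (((g : ZMod q).val : ℕ) : 𝓞 K) ^ (multiplicity P (Ideal.span {γ})) - 1) := by
        ring
      rw [e]; exact this
    rcases hPp.mem_or_mem h3 with h4 | h4
    · exact absurd h4 (zeta_sub_one_notMem (p := p) (q := q) hζ P hPp.ne_top hpq hqP)
    · have h5 := modEq_of_pow_sub_pow_mem (q := q) K g hg P hqP _ _ h4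
      have h6 := (Nat.modEq_iff_dvd.mp h5.symm)
      obtain ⟨k, hk⟩ := h6
      exact ⟨k, by linarith⟩
  choose! k hk using hmod
  refine ⟨J * ∏ P ∈ s, idealClass P ^ k P, ?_⟩
  rw [mul_pow, ← hJ, ← Finset.prod_pow, ← Finset.prod_mul_distrib]
  refine Finset.prod_congr rfl fun P hP => ?_
  rw [← zpow_natCast (idealClass P) (r P), hk P hP, zpow_add, zpow_natCast, zpow_mul,
    zpow_natCast]
  congr 1
  rw [← zpow_natCast (idealClass P) (q - 1), ← zpow_mul,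
    ← zpow_natCast (idealClass P ^ k P) (q - 1), ← zpow_mul, mul_comm]

end thaine

end Fermat.Agent.S14.Thaine430
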